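/-
S20, package W (helper81): abstract Wronskian / Abel–Liouville formula.

* `hasDerivAt_det`: Jacobi's formula (column form) for a matrix of differentiable functions.
* `D_det`: if `D Φ = Φ ⬝ B` column-wise on the upper half-plane then `D (det Φ) = tr B * det Φ`.
* `D_discriminant`: `D Δ = E₂ * Δ`.
* `det_pow_twelve_eq`: if moreover `tr B = (W / 12) * E₂` then `det Φ ^ 12 = c * Δ ^ W`.
-/
import Mathlib

set_option autoImplicit false

open UpperHalfPlane ModularForm Matrix Derivative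
open scoped Real Manifold MatrixGroups Topology

noncomputable section

namespace Fermat.Agent.S20.H81

/-- Jacobi's formula, column form: the derivative of a determinant is the sum of the determinants
obtained by differentiating one column at a time. -/
theorem hasDerivAt_det {ι : Type*} [Fintype ι] [DecidableEq ι] {M : ℂ → Matrix ι ι ℂ}
    {M' : Matrix ι ι ℂ} {z : ℂ} (h : ∀ i j, HasDerivAt (fun w => M w i j) (M' i j) z) :
    HasDerivAt (fun w => (M w).det)
      (∑ j, ((M z).updateCol j (fun i => M' i j)).det) z := by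
  simp only [Matrix.det_apply']
  rw [Finset.sum_comm]
  refine HasDerivAt.fun_sum fun σ _ => ?_
  have hprod := HasDerivAt.fun_finsetProd (u := Finset.univ) (f := fun i w => M w (σ i) i)
    (f' := fun i => M' (σ i) i) (x := z) (fun i _ => h (σ i) i)
  refine (hprod.const_mul ((Equiv.Perm.sign σ : ℤ) : ℂ)).congr_deriv ?_
  rw [Finset.mul_sum]
  refine Finset.sum_congr rfl fun j _ => ?_
  congr 1
  rw [← Finset.mul_prod_erase _ _ (Finset.mem_univ j), Matrix.updateCol_self, smul_eq_mul,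
    mul_comm]
  congr 1
  refine Finset.prod_congr rfl fun i hi => ?_
  rw [Matrix.updateCol_ne (Finset.ne_of_mem_erase hi)]


/-- `D F τ` in `HasDerivAt` form. -/
theorem hasDerivAt_of_mdiff {F : ℍ → ℂ} (hF : MDiff F) (τ : ℍ) :
    HasDerivAt (F ∘ ofComplex) (2 * π * Complex.I * D F τ) (τ : ℂ) := by
  have h1 : DifferentiableAt ℂ (F ∘ ofComplex) (τ : ℂ) := mdifferentiableAt_iff.mp (hF τ)
  have h2 := h1.hasDerivAt
  have h3 : 2 * π * Complex.I * D F τ = deriv (F ∘ ofComplex) (τ : ℂ) := by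
    simp only [normalizedDerivOfComplex]
    have : (2 * (π : ℂ) * Complex.I) ≠ 0 := by
      simp [Real.pi_ne_zero]
    field_simp
  rw [h3]
  exact h2

/-- Abel–Liouville, `HasDerivAt` form: if the columns of `Φ` satisfy `D Φ_j = ∑ l, B l j • Φ_l`
then `det Φ` has derivative `2πi * tr B * det Φ`. -/
theorem hasDerivAt_det_of_ode {ι : Type*} [Fintype ι] [DecidableEq ι] (Φ B : ℍ → Matrix ι ι ℂ)
    (hΦ : ∀ i j, MDiff fun τ => Φ τ i j)
    (hD : ∀ i j τ, D (fun τ => Φ τ i j) τ = ∑ l, B τ l j * Φ τ i l) (τ : ℍ) :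
    HasDerivAt (fun w : ℂ => (Φ (ofComplex w)).det)
      (2 * π * Complex.I * ((B τ).trace * (Φ τ).det)) (τ : ℂ) := by
  have hent : ∀ i j, HasDerivAt (fun w : ℂ => Φ (ofComplex w) i j)
      (2 * π * Complex.I * ∑ l, B τ l j * Φ τ i l) (τ : ℂ) := by
    intro i j
    have h := hasDerivAt_of_mdiff (hΦ i j) τ
    rw [hD i j τ] at h
    exact h
  have hdet := hasDerivAt_det (M := fun w => Φ (ofComplex w))
    (M' := fun i j => 2 * π * Complex.I * ∑ l, B τ l j * Φ τ i l) hent
  refine hdet.congr_deriv ?_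
  simp only [ofComplex_apply]
  have key : ∀ j, ((Φ τ).updateCol j
      (fun i => 2 * π * Complex.I * ∑ l, B τ l j * Φ τ i l)).det
        = (2 * π * Complex.I * B τ j j) * (Φ τ).det := by
    intro j
    have h := Matrix.det_updateCol_sum (Φ τ) j (fun l => 2 * π * Complex.I * B τ l j)
    simp only [smul_eq_mul] at h
    have hcol : (fun i => 2 * π * Complex.I * ∑ l, B τ l j * Φ τ i l)
        = (fun k => ∑ x, 2 * π * Complex.I * B τ x j * Φ τ k x) := by
      funext i
      rw [Finset.mul_sum]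
      exact Finset.sum_congr rfl fun l _ => by ring
    rw [hcol, h]
  rw [Finset.sum_congr rfl fun j _ => key j]
  simp only [Matrix.trace, Matrix.diag_apply, Finset.sum_mul, Finset.mul_sum]
  exact Finset.sum_congr rfl fun j _ => by ring

/-- Abel–Liouville on `ℍ` in terms of the normalised derivative `D`. -/
theorem D_det {ι : Type*} [Fintype ι] [DecidableEq ι] (Φ B : ℍ → Matrix ι ι ℂ)
    (hΦ : ∀ i j, MDiff fun τ => Φ τ i j)
    (hD : ∀ i j τ, D (fun τ => Φ τ i j) τ = ∑ l, B τ l j * Φ τ i l) (τ : ℍ) :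
    D (fun τ => (Φ τ).det) τ = (B τ).trace * (Φ τ).det := by
  have h := (hasDerivAt_det_of_ode Φ B hΦ hD τ).deriv
  simp only [normalizedDerivOfComplex]
  rw [show ((fun τ => (Φ τ).det) ∘ ofComplex) = fun w : ℂ => (Φ (ofComplex w)).det from rfl, h]
  have : (2 * (π : ℂ) * Complex.I) ≠ 0 := by
    simp [Real.pi_ne_zero]
  field_simp

/-- The discriminant, as a function on `ℂ`, has derivative `2πi * E₂ * Δ`. -/
theorem hasDerivAt_discriminant (τ : ℍ) :
    HasDerivAt (fun w : ℂ => discriminant (ofComplex w))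
      (2 * π * Complex.I * (EisensteinSeries.E2 τ * discriminant τ)) (τ : ℂ) := by
  have hη : DifferentiableAt ℂ eta (τ : ℂ) := differentiableAt_eta_of_mem_upperHalfPlaneSet τ.2
  have hev : (fun w : ℂ => discriminant (ofComplex w)) =ᶠ[𝓝 (τ : ℂ)] fun w => eta w ^ 24 := by
    filter_upwards [isOpen_upperHalfPlaneSet.mem_nhds τ.im_pos] with w hw
    simp [discriminant, ofComplex_apply_of_im_pos hw]
  have h2 := logDeriv_eta_eq_E2 τ
  rw [logDeriv_apply] at h2
  have hne : eta (τ : ℂ) ≠ 0 := eta_ne_zero τ.2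
  have h3 : deriv eta (τ : ℂ) = π * Complex.I / 12 * EisensteinSeries.E2 τ * eta (τ : ℂ) := by
    rw [← h2]
    field_simp
  have h4 : HasDerivAt eta (π * Complex.I / 12 * EisensteinSeries.E2 τ * eta (τ : ℂ)) (τ : ℂ) := by
    rw [← h3]
    exact hη.hasDerivAt
  refine ((h4.pow 24).congr_of_eventuallyEq hev).congr_deriv ?_
  simp only [discriminant]
  ring

/-- `D Δ = E₂ * Δ`. -/
theorem D_discriminant (τ : ℍ) :
    D discriminant τ = EisensteinSeries.E2 τ * discriminant τ := by
  have h := (hasDerivAt_discriminant τ).deriv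
  simp only [normalizedDerivOfComplex]
  rw [show (discriminant ∘ ofComplex) = fun w : ℂ => discriminant (ofComplex w) from rfl, h]
  have : (2 * (π : ℂ) * Complex.I) ≠ 0 := by
    simp [Real.pi_ne_zero]
  field_simp


/-- **Wronskian formula.** If the columns of `Φ` satisfy the linear ODE `D Φ = Φ ⬝ B` on `ℍ` and
`tr B = (W / 12) * E₂`, then `det Φ ^ 12` is a constant multiple of `Δ ^ W`. -/
theorem det_pow_twelve_eq {ι : Type*} [Fintype ι] [DecidableEq ι] (Φ B : ℍ → Matrix ι ι ℂ)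
    (W : ℤ) (hΦ : ∀ i j, MDiff fun τ => Φ τ i j)
    (hD : ∀ i j τ, D (fun τ => Φ τ i j) τ = ∑ l, B τ l j * Φ τ i l)
    (htr : ∀ τ, (B τ).trace = (W : ℂ) * 12⁻¹ * EisensteinSeries.E2 τ) :
    ∃ c : ℂ, ∀ τ : ℍ, (Φ τ).det ^ 12 = c * discriminant τ ^ W := by
  set h : ℂ → ℂ :=
    fun w => (Φ (ofComplex w)).det ^ 12 * (discriminant (ofComplex w) ^ W)⁻¹ with hh
  have hderiv : ∀ τ : ℍ, HasDerivAt h 0 (τ : ℂ) := by
    intro τ
    have h1 := hasDerivAt_det_of_ode Φ B hΦ hD τ
    have h2 := hasDerivAt_discriminant τ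
    have hne : discriminant τ ≠ 0 := discriminant_ne_zero τ
    have hne' : discriminant (ofComplex (τ : ℂ)) ≠ 0 := by simpa using hne
    have h3 := (hasDerivAt_zpow W (discriminant (ofComplex (τ : ℂ))) (Or.inl hne')).comp
      (τ : ℂ) h2
    have h4 := (h1.pow 12).mul (h3.inv (zpow_ne_zero _ hne'))
    refine h4.congr_deriv ?_
    simp only [ofComplex_apply, htr τ, Function.comp_apply, Pi.inv_apply, Pi.pow_apply]
    have hz : discriminant τ ^ (W - 1) = discriminant τ ^ W / discriminant τ := by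
      rw [zpow_sub_one₀ hne]
      field_simp
    rw [hz]
    have hW : discriminant τ ^ W ≠ 0 := zpow_ne_zero _ hne
    field_simp
    ring
  obtain ⟨c, hc⟩ := isOpen_upperHalfPlaneSet.exists_is_const_of_deriv_eq_zero
    (convex_halfSpace_im_gt 0).isPreconnected (f := h)
    (fun z hz => (hderiv ⟨z, hz⟩).differentiableAt.differentiableWithinAt)
    (fun z hz => (hderiv ⟨z, hz⟩).deriv)
  refine ⟨c, fun τ => ?_⟩
  have h5 := hc τ τ.2
  simp only [hh, ofComplex_apply] at h5
  have hW : discriminant τ ^ W ≠ 0 := zpow_ne_zero _ (discriminant_ne_zero τ)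
  rw [← h5]
  field_simp

/-- If the Wronskian does not vanish at one point of `ℍ`, it vanishes nowhere. -/
theorem det_ne_zero_of_ode {ι : Type*} [Fintype ι] [DecidableEq ι] (Φ B : ℍ → Matrix ι ι ℂ)
    (W : ℤ) (hΦ : ∀ i j, MDiff fun τ => Φ τ i j)
    (hD : ∀ i j τ, D (fun τ => Φ τ i j) τ = ∑ l, B τ l j * Φ τ i l)
    (htr : ∀ τ, (B τ).trace = (W : ℂ) * 12⁻¹ * EisensteinSeries.E2 τ)
    {τ₁ : ℍ} (h1 : (Φ τ₁).det ≠ 0) (τ : ℍ) : (Φ τ).det ≠ 0 := by
  obtain ⟨c, hc⟩ := det_pow_twelve_eq Φ B W hΦ hD htr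
  have hc0 : c ≠ 0 := by
    rintro rfl
    have := hc τ₁
    rw [zero_mul] at this
    exact h1 (pow_eq_zero_iff (by norm_num) |>.mp this)
  intro h0
  have := hc τ
  rw [h0, zero_pow (by norm_num)] at this
  exact mul_ne_zero hc0 (zpow_ne_zero _ (discriminant_ne_zero τ)) this.symm

end Fermat.Agent.S20.H81
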