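/-
S20, package W (helper81): the Serre derivative preserves modular forms on `Γ₀(N)`.

* `isBoundedAtImInfty_D`, `isZeroAtImInfty_D`: Cauchy estimates for the normalised derivative.
* `serreD`: `ϑ_k : M_k(Γ₀(N)) → M_{k+2}(Γ₀(N))`, with `cosetFun_serreD`.
-/
import Fermat.Agent.S20.Defs

set_option autoImplicit false

open UpperHalfPlane ModularForm CongruenceSubgroup Matrix.SpecialLinearGroup Derivative Filter
open scoped MatrixGroups ModularForm Manifold Topology Real

noncomputable section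

namespace Fermat.Agent.S20.H81

/-- Auxiliary Cauchy estimate: if `‖g‖ ≤ M` on `{A ≤ im}` then `‖D g z‖ ≤ (2π)⁻¹ * M` for
`max A 1 + 1 ≤ im z`. -/
theorem norm_D_le {g : ℍ → ℂ} (hg : MDiff g) {M A : ℝ} (hMA : ∀ z : ℍ, A ≤ im z → ‖g z‖ ≤ M)
    (z : ℍ) (hz : max A 1 + 1 ≤ im z) : ‖D g z‖ ≤ (2 * π)⁻¹ * M := by
  have hdiff : DifferentiableOn ℂ (g ∘ ofComplex) {w | 0 < w.im} := mdifferentiable_iff.mp hg
  have him : ∀ w ∈ Metric.closedBall (z : ℂ) 1, max A 1 ≤ w.im := by
    intro w hw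
    rw [Metric.mem_closedBall, Complex.dist_eq] at hw
    have h1 : |(w - (z : ℂ)).im| ≤ ‖w - (z : ℂ)‖ := Complex.abs_im_le_norm _
    rw [Complex.sub_im] at h1
    have h2 := (abs_le.mp (h1.trans hw)).1
    have h3 : (z : ℂ).im = im z := rfl
    linarith
  have hball : Metric.closedBall (z : ℂ) 1 ⊆ {w : ℂ | 0 < w.im} := by
    intro w hw
    have := him w hw
    have h1 : (1 : ℝ) ≤ max A 1 := le_max_right _ _
    show 0 < w.im
    linarith
  have h1 := Complex.norm_deriv_le_of_forall_mem_sphere_norm_le (c := (z : ℂ)) (R := 1) (C := M)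
    one_pos (hdiff.diffContOnCl_ball hball) (fun w hw => by
      have hw' : w ∈ Metric.closedBall (z : ℂ) 1 := Metric.sphere_subset_closedBall hw
      have hwpos : 0 < w.im := hball hw'
      have hA : A ≤ im (⟨w, hwpos⟩ : ℍ) := (le_max_left A 1).trans (him w hw')
      simpa [Function.comp_apply, ofComplex_apply_of_im_pos hwpos] using hMA ⟨w, hwpos⟩ hA)
  simp only [normalizedDerivOfComplex, norm_mul, norm_inv, Complex.norm_I,
    mul_one, Complex.norm_ofNat, Complex.norm_real, Real.norm_eq_abs, abs_of_pos Real.pi_pos]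
  have h2 : ‖deriv (g ∘ ofComplex) (z : ℂ)‖ ≤ M := by simpa using h1
  have h3 : (0 : ℝ) ≤ (2 * π)⁻¹ := by positivity
  exact mul_le_mul_of_nonneg_left h2 h3

/-- Cauchy estimate: `D` preserves boundedness at `i∞`. -/
theorem isBoundedAtImInfty_D {g : ℍ → ℂ} (hg : MDiff g) (hb : IsBoundedAtImInfty g) :
    IsBoundedAtImInfty (D g) := by
  rw [isBoundedAtImInfty_iff] at hb ⊢
  obtain ⟨M, A, hMA⟩ := hb
  exact ⟨(2 * π)⁻¹ * M, max A 1 + 1, fun z hz => norm_D_le hg hMA z hz⟩

/-- Cauchy estimate: `D` preserves vanishing at `i∞`. -/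
theorem isZeroAtImInfty_D {g : ℍ → ℂ} (hg : MDiff g) (hb : IsZeroAtImInfty g) :
    IsZeroAtImInfty (D g) := by
  rw [isZeroAtImInfty_iff] at hb ⊢
  intro ε hε
  obtain ⟨A, hA⟩ := hb ε hε
  refine ⟨max A 1 + 1, fun z hz => (norm_D_le hg hA z hz).trans ?_⟩
  have h1 : (2 * π)⁻¹ ≤ 1 := by
    rw [inv_le_one₀ (by positivity)]
    have := Real.pi_gt_three
    linarith
  calc (2 * π)⁻¹ * ε ≤ 1 * ε := mul_le_mul_of_nonneg_right h1 hε.le
    _ = ε := one_mul ε

/-- The Serre derivative preserves boundedness at `i∞`. -/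
theorem isBoundedAtImInfty_serreDerivative {g : ℍ → ℂ} (k : ℂ) (hg : MDiff g)
    (hb : IsBoundedAtImInfty g) : IsBoundedAtImInfty (serreDerivative k g) := by
  have h1 := isBoundedAtImInfty_D hg hb
  have h2 := EisensteinSeries.isBoundedAtImInfty_E2
  rw [isBoundedAtImInfty_iff] at hb h1 h2 ⊢
  obtain ⟨M1, A1, hM1⟩ := h1
  obtain ⟨M2, A2, hM2⟩ := h2
  obtain ⟨M3, A3, hM3⟩ := hb
  refine ⟨M1 + ‖k * 12⁻¹‖ * (M2 * M3), max A1 (max A2 A3), fun z hz => ?_⟩
  have hz1 : A1 ≤ im z := (le_max_left _ _).trans hz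
  have hz2 : A2 ≤ im z := ((le_max_left _ _).trans (le_max_right _ _)).trans hz
  have hz3 : A3 ≤ im z := ((le_max_right _ _).trans (le_max_right _ _)).trans hz
  rw [serreDerivative_apply]
  have h5 : ‖k * 12⁻¹ * EisensteinSeries.E2 z * g z‖ ≤ ‖k * 12⁻¹‖ * (M2 * M3) := by
    rw [mul_assoc, norm_mul, norm_mul (EisensteinSeries.E2 z)]
    exact mul_le_mul_of_nonneg_left
      (mul_le_mul (hM2 z hz2) (hM3 z hz3) (norm_nonneg _) ((norm_nonneg _).trans (hM2 z hz2)))
      (norm_nonneg _)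
  calc ‖D g z - k * 12⁻¹ * EisensteinSeries.E2 z * g z‖
      ≤ ‖D g z‖ + ‖k * 12⁻¹ * EisensteinSeries.E2 z * g z‖ := norm_sub_le _ _
    _ ≤ M1 + ‖k * 12⁻¹‖ * (M2 * M3) := add_le_add (hM1 z hz1) h5

/-- The Serre derivative preserves vanishing at `i∞`. -/
theorem isZeroAtImInfty_serreDerivative {g : ℍ → ℂ} (k : ℂ) (hg : MDiff g)
    (hb : IsZeroAtImInfty g) : IsZeroAtImInfty (serreDerivative k g) := by
  have h1 : ZeroAtFilter atImInfty (D g) := isZeroAtImInfty_D hg hb
  have h2 : BoundedAtFilter atImInfty EisensteinSeries.E2 := EisensteinSeries.isBoundedAtImInfty_E2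
  have hb' : ZeroAtFilter atImInfty g := hb
  have h3 : ZeroAtFilter atImInfty ((k * 12⁻¹) • (EisensteinSeries.E2 * g)) :=
    (h2.mul_zeroAtFilter hb').smul (k * 12⁻¹)
  have h4 : serreDerivative k g = D g + -((k * 12⁻¹) • (EisensteinSeries.E2 * g)) := by
    ext z
    simp only [serreDerivative_apply, Pi.add_apply, Pi.neg_apply, Pi.smul_apply, Pi.mul_apply,
      smul_eq_mul]
    ring
  show ZeroAtFilter atImInfty (serreDerivative k g)
  rw [h4]
  exact h1.add h3.neg


variable {N : ℕ} [NeZero N] {k : ℤ}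

/-- The Serre derivative as a map `M_k(Γ₀(N)) → M_{k+2}(Γ₀(N))`. -/
def serreD (f : ModularForm (Γ0 N) k) : ModularForm (Γ0 N) (k + 2) where
  toFun := serreDerivative k f
  slash_action_eq' := by
    rintro γ ⟨γ', hγ', rfl⟩
    have h1 : (f : ℍ → ℂ) ∣[k] γ' = f := slash_eq_of_mem_Gamma0 f hγ'
    exact serreDerivative_slash_invariant (ModularFormClass.holo f) h1
  holo' := serreDerivative_mdifferentiable _ (ModularFormClass.holo f)
  bdd_at_cusps' {c} hc := by
    rw [Subgroup.IsArithmetic.isCusp_iff_isCusp_SL2Z] at hc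
    rw [OnePoint.isBoundedAt_iff_forall_SL2Z hc]
    intro γ _
    rw [serreDerivative_slash_equivariant (ModularFormClass.holo f)]
    exact isBoundedAtImInfty_serreDerivative k ((ModularFormClass.holo f).slash k _)
      (ModularFormClass.bdd_at_infty_slash f γ)

@[simp] lemma coe_serreD (f : ModularForm (Γ0 N) k) :
    ⇑(serreD f) = serreDerivative k f := rfl

/-- Coset translates commute with the Serre derivative. -/
lemma cosetFun_serreD (f : ModularForm (Γ0 N) k) (c : X N) :
    cosetFun (serreD f) c = serreDerivative k (cosetFun f c) := by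
  induction c using QuotientGroup.induction_on with
  | H g =>
    rw [cosetFun_mk, cosetFun_mk, coe_serreD]
    exact serreDerivative_slash_equivariant (ModularFormClass.holo f)

/-- The Serre derivative as a map `S_k(Γ₀(N)) → S_{k+2}(Γ₀(N))`. -/
def serreDCusp (f : CuspForm (Γ0 N) k) : CuspForm (Γ0 N) (k + 2) where
  toFun := serreDerivative k f
  slash_action_eq' := by
    rintro γ ⟨γ', hγ', rfl⟩
    have h1 : (f : ℍ → ℂ) ∣[k] γ' = f := slash_eq_of_mem_Gamma0 f hγ'
    exact serreDerivative_slash_invariant (CuspFormClass.holo f) h1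
  holo' := serreDerivative_mdifferentiable _ (CuspFormClass.holo f)
  zero_at_cusps' {c} hc := by
    rw [Subgroup.IsArithmetic.isCusp_iff_isCusp_SL2Z] at hc
    rw [OnePoint.isZeroAt_iff_forall_SL2Z hc]
    intro γ _
    rw [serreDerivative_slash_equivariant (CuspFormClass.holo f)]
    exact isZeroAtImInfty_serreDerivative k ((CuspFormClass.holo f).slash k _)
      (CuspFormClass.zero_at_infty_slash f γ)

@[simp] lemma coe_serreDCusp (f : CuspForm (Γ0 N) k) :
    ⇑(serreDCusp f) = serreDerivative k f := rfl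

/-- Coset translates commute with the Serre derivative (cusp forms). -/
lemma cosetFun_serreDCusp (f : CuspForm (Γ0 N) k) (c : X N) :
    cosetFun (serreDCusp f) c = serreDerivative k (cosetFun f c) := by
  induction c using QuotientGroup.induction_on with
  | H g =>
    rw [cosetFun_mk, cosetFun_mk, coe_serreDCusp]
    exact serreDerivative_slash_equivariant (CuspFormClass.holo f)

end Fermat.Agent.S20.H81
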