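/-
S20, package W (helper81): the Wronskian formula for a generating frame of `M_*(Γ₀(N))`.

If `F x ∈ M_{a x}(Γ₀(N))` (`x : X N`) generate all modular forms on `Γ₀(N)` over level one, then
`det (frameMatrix F τ) ^ 12 = c * Δ(τ) ^ (∑ x, a x)`; in particular the frame matrix is invertible
at every point of `ℍ` as soon as it is invertible at one point.
-/
import Fermat.Agent.S20.H81.Jacobi
import Fermat.Agent.S20.H81.SerreD

set_option autoImplicit false

open UpperHalfPlane ModularForm CongruenceSubgroup Matrix.SpecialLinearGroup Derivative Filter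
open scoped MatrixGroups ModularForm Manifold Topology Real

noncomputable section

namespace Fermat.Agent.S20.H81

variable {N : ℕ} [NeZero N]

/-- Level-one forms of weight `2` vanish (weight only propositionally equal to `2`). -/
lemma levelOne_eq_zero_of_weight_two {m : ℤ} (hm : m = 2) (r : ModularForm 𝒮ℒ m) (τ : ℍ) :
    r τ = 0 := by
  subst hm
  have h := rank_zero_iff_forall_zero.mp ModularForm.levelOne_weight_two_rank_zero r
  simp [h]

/-- Transformation law of a level-one form under `SL(2, ℤ)`. -/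
lemma levelOne_smul_apply {m : ℤ} (r : ModularForm 𝒮ℒ m) (γ : SL(2, ℤ)) (τ : ℍ) :
    r (γ • τ) = denom γ τ ^ m * r τ :=
  SlashInvariantForm.slash_action_eqn'' r (γ := mapGL ℝ γ) (MonoidHom.mem_range.mpr ⟨γ, rfl⟩) τ

/-- Transformation law of a form on `Γ₀(N)` in terms of its coset translates. -/
lemma apply_smul {k : ℤ} (f : ModularForm (Γ0 N) k) (γ : SL(2, ℤ)) (τ : ℍ) :
    f (γ • τ) = denom γ τ ^ k * cosetFun f (QuotientGroup.mk γ⁻¹ : X N) τ := by
  have h := cosetFun_smul_apply f γ (QuotientGroup.mk 1 : X N) τ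
  rw [cosetFun_one] at h
  rw [h, MulAction.Quotient.smul_mk, smul_eq_mul, mul_one]

/-- A level-one linear relation between forms on `Γ₀(N)` propagates to all coset translates. -/
lemma cosetFun_eq_sum_of_eq_sum {ι : Type*} [Fintype ι] {k : ℤ} {a : ι → ℤ}
    (f : ModularForm (Γ0 N) k) (F : ∀ y, ModularForm (Γ0 N) (a y))
    (r : ∀ y, ModularForm 𝒮ℒ (k - a y)) (h : ∀ τ, f τ = ∑ y, r y τ * F y τ) (c : X N) (τ : ℍ) :
    cosetFun f c τ = ∑ y, r y τ * cosetFun (F y) c τ := by
  induction c using QuotientGroup.induction_on with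
  | H g =>
    obtain ⟨γ, rfl⟩ : ∃ γ : SL(2, ℤ), g = γ⁻¹ := ⟨g⁻¹, (inv_inv g).symm⟩
    have hden : denom γ τ ≠ 0 := denom_ne_zero γ τ
    have h1 := h (γ • τ)
    rw [apply_smul f γ τ] at h1
    have h2 : ∀ y, r y (γ • τ) * F y (γ • τ)
        = denom γ τ ^ k * (r y τ * cosetFun (F y) (QuotientGroup.mk γ⁻¹ : X N) τ) := by
      intro y
      rw [levelOne_smul_apply (r y) γ τ, apply_smul (F y) γ τ]
      have : denom γ τ ^ k = denom γ τ ^ (k - a y) * denom γ τ ^ (a y) := by
        rw [← zpow_add₀ hden]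
        congr 1
        ring
      rw [this]
      ring
    rw [Finset.sum_congr rfl fun y _ => h2 y, ← Finset.mul_sum] at h1
    exact mul_left_cancel₀ (zpow_ne_zero _ hden) h1

/-- **Wronskian formula** for a generating frame of `M_*(Γ₀(N))`: if the forms `F x` generate all
modular forms on `Γ₀(N)` over the level-one forms, then `det (frameMatrix F) ^ 12` is a constant
multiple of `Δ ^ (∑ x, a x)`. -/
theorem det_frameMatrix_pow_twelve {a : X N → ℤ} (F : ∀ x, ModularForm (Γ0 N) (a x))
    (hgen : ∀ (k : ℤ) (f : ModularForm (Γ0 N) k),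
      ∃ r : ∀ x, ModularForm 𝒮ℒ (k - a x), ∀ τ, f τ = ∑ x, r x τ * F x τ) :
    ∃ c : ℂ, ∀ τ : ℍ, (frameMatrix F τ).det ^ 12 = c * discriminant τ ^ (∑ x, a x) := by
  classical
  choose r hr using fun x => hgen (a x + 2) (serreD (F x))
  let B : ℍ → Matrix (X N) (X N) ℂ := fun τ => Matrix.of fun y x =>
    r x y τ + if y = x then (a x : ℂ) * 12⁻¹ * EisensteinSeries.E2 τ else 0
  have hcast : ((∑ x, a x : ℤ) : ℂ) = ∑ x, (a x : ℂ) := by push_cast; rfl
  refine det_pow_twelve_eq (fun τ => frameMatrix F τ) B (∑ x, a x) ?_ ?_ ?_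
  · intro c x
    exact mdifferentiable_cosetFun (F x) c
  · intro c x τ
    have h1 := cosetFun_eq_sum_of_eq_sum (serreD (F x)) F (r x) (hr x) c τ
    rw [cosetFun_serreD, serreDerivative_apply] at h1
    show D (cosetFun (F x) c) τ = ∑ y, B τ y x * cosetFun (F y) c τ
    simp only [B, Matrix.of_apply, add_mul, Finset.sum_add_distrib, ite_mul, zero_mul,
      Finset.sum_ite_eq', Finset.mem_univ, if_true]
    rw [← h1]
    ring
  · intro τ
    have h0 : ∀ x, r x x τ = 0 := fun x =>
      levelOne_eq_zero_of_weight_two (by ring) (r x x) τ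
    simp only [Matrix.trace, Matrix.diag_apply, B, Matrix.of_apply, if_true, h0, zero_add]
    rw [hcast, Finset.sum_mul, Finset.sum_mul]

/-- A generating frame whose matrix is invertible at one point of `ℍ` is invertible everywhere. -/
theorem det_frameMatrix_ne_zero {a : X N → ℤ} (F : ∀ x, ModularForm (Γ0 N) (a x))
    (hgen : ∀ (k : ℤ) (f : ModularForm (Γ0 N) k),
      ∃ r : ∀ x, ModularForm 𝒮ℒ (k - a x), ∀ τ, f τ = ∑ x, r x τ * F x τ)
    {τ₁ : ℍ} (h1 : (frameMatrix F τ₁).det ≠ 0) (τ : ℍ) : (frameMatrix F τ).det ≠ 0 := by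
  obtain ⟨c, hc⟩ := det_frameMatrix_pow_twelve F hgen
  have hc0 : c ≠ 0 := by
    rintro rfl
    have := hc τ₁
    rw [zero_mul] at this
    exact h1 (pow_eq_zero_iff (by norm_num) |>.mp this)
  intro h0
  have := hc τ
  rw [h0, zero_pow (by norm_num)] at this
  exact mul_ne_zero hc0 (zpow_ne_zero _ (discriminant_ne_zero τ)) this.symm

end Fermat.Agent.S20.H81
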