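/-
S20, package W (helper81): the sum rule.

If `det (frameMatrix F τ)` has exact exponential order `e` at `i∞`
(i.e. `‖det‖ * exp (2π e im τ)` tends to a nonzero limit), then `∑ x, a x = 12 e`.
-/
import Fermat.Agent.S20.H81.Wronskian

set_option autoImplicit false

open UpperHalfPlane ModularForm CongruenceSubgroup Matrix.SpecialLinearGroup Derivative Filter
open scoped MatrixGroups ModularForm Manifold Topology Real

noncomputable section

namespace Fermat.Agent.S20.H81

/-- `‖Δ(τ)‖ * exp (2π im τ) → 1` as `τ → i∞`. -/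
theorem tendsto_norm_discriminant_mul_exp :
    Tendsto (fun τ : ℍ => ‖discriminant τ‖ * Real.exp (2 * π * τ.im)) atImInfty (𝓝 1) := by
  have h1 : Tendsto (fun τ : ℍ => ‖∏' (n : ℕ), (1 - eta_q n τ) ^ 24‖) atImInfty (𝓝 1) := by
    simpa using tendsto_atImInfty_tprod_one_sub_eta_q_pow.norm
  refine h1.congr fun τ => ?_
  rw [discriminant_eq_q_prod, norm_mul, Function.Periodic.norm_qParam]
  have h2 : Real.exp (-2 * π * (τ : ℂ).im / 1) * Real.exp (2 * π * τ.im) = 1 := by
    rw [← Real.exp_add]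
    have : (τ : ℂ).im = τ.im := rfl
    rw [this]
    simp
  rw [mul_comm (Real.exp _), mul_assoc, h2, mul_one]

/-- Integer powers of the real exponential. -/
theorem real_exp_zpow (x : ℝ) (n : ℤ) : Real.exp x ^ n = Real.exp ((n : ℝ) * x) := by
  rw [← Real.rpow_intCast, ← Real.exp_mul, mul_comm]

/-- The sequence `n ↦ i (n + 1)` tends to `i∞`. -/
theorem tendsto_seq_atImInfty :
    Tendsto (fun n : ℕ => (⟨Complex.I * ((n : ℝ) + 1), by simp; positivity⟩ : ℍ)) atTop
      atImInfty := by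
  rw [atImInfty, tendsto_comap_iff]
  have : (im ∘ fun n : ℕ => (⟨Complex.I * ((n : ℝ) + 1), by simp; positivity⟩ : ℍ))
      = fun n : ℕ => (n : ℝ) + 1 := by
    funext n
    simp [UpperHalfPlane.im]
  rw [this]
  exact tendsto_atTop_add_const_right _ _ tendsto_natCast_atTop_atTop

/-- **Sum rule.** For a generating frame `F` of `M_*(Γ₀(N))`: if `det (frameMatrix F τ)` has
exact exponential order `e` at `i∞`, then the sum of the weights of the frame is `12 e`. -/
theorem sum_weights_eq_of_tendsto {N : ℕ} [NeZero N] {a : X N → ℤ}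
    (F : ∀ x, ModularForm (Γ0 N) (a x))
    (hgen : ∀ (k : ℤ) (f : ModularForm (Γ0 N) k),
      ∃ r : ∀ x, ModularForm 𝒮ℒ (k - a x), ∀ τ, f τ = ∑ x, r x τ * F x τ)
    {e C : ℝ} (hC : C ≠ 0)
    (h : Tendsto (fun τ : ℍ => ‖(frameMatrix F τ).det‖ * Real.exp (2 * π * e * τ.im))
      atImInfty (𝓝 C)) :
    ((∑ x, a x : ℤ) : ℝ) = 12 * e := by
  obtain ⟨c, hc⟩ := det_frameMatrix_pow_twelve F hgen
  set W : ℤ := ∑ x, a x with hW
  -- the auxiliary function `P τ = ‖Δ τ‖ * exp (2π im τ)`, which tends to `1`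
  set P : ℍ → ℝ := fun τ => ‖discriminant τ‖ * Real.exp (2 * π * τ.im) with hP
  have hPpos : ∀ τ, 0 < P τ := fun τ =>
    mul_pos (norm_pos_iff.mpr (discriminant_ne_zero τ)) (Real.exp_pos _)
  have hPW : Tendsto (fun τ : ℍ => P τ ^ W) atImInfty (𝓝 1) := by
    have h0 := (continuousAt_zpow₀ (1 : ℝ) W (Or.inl one_ne_zero)).tendsto.comp
      tendsto_norm_discriminant_mul_exp
    rw [one_zpow] at h0
    exact h0
  -- key identity
  have key : ∀ τ : ℍ, (‖(frameMatrix F τ).det‖ * Real.exp (2 * π * e * τ.im)) ^ 12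
      = ‖c‖ * Real.exp (2 * π * (12 * e - W) * τ.im) * P τ ^ W := by
    intro τ
    have h1 : ‖(frameMatrix F τ).det‖ ^ 12 = ‖c‖ * ‖discriminant τ‖ ^ W := by
      rw [← norm_pow, hc τ, norm_mul, norm_zpow]
    rw [mul_pow, h1, hP]
    simp only
    rw [mul_zpow, ← Real.exp_nat_mul, real_exp_zpow]
    have h2 : Real.exp (2 * π * (12 * e - W) * τ.im) * Real.exp ((W : ℝ) * (2 * π * τ.im))
        = Real.exp (((12 : ℕ) : ℝ) * (2 * π * e * τ.im)) := by
      rw [← Real.exp_add]
      congr 1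
      push_cast
      ring
    rw [← h2]
    ring
  -- hence `‖c‖ * exp (2π (12 e - W) im τ) → C ^ 12`
  have h3 : Tendsto (fun τ : ℍ => ‖c‖ * Real.exp (2 * π * (12 * e - W) * τ.im)) atImInfty
      (𝓝 (C ^ 12)) := by
    have h4 := (h.pow 12).div hPW one_ne_zero
    rw [div_one] at h4
    refine h4.congr fun τ => ?_
    simp only [Pi.div_apply]
    rw [key τ, mul_div_assoc, div_self (zpow_ne_zero _ (hPpos τ).ne'), mul_one]
  -- evaluate along `τ = i (n + 1)`
  have h5 := h3.comp tendsto_seq_atImInfty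
  have him : ∀ n : ℕ, (⟨Complex.I * ((n : ℝ) + 1), by simp; positivity⟩ : ℍ).im = (n : ℝ) + 1 := by
    intro n
    simp [UpperHalfPlane.im]
  set d : ℝ := 2 * π * (12 * e - W) with hd
  have h6 : Tendsto (fun n : ℕ => ‖c‖ * Real.exp (d * ((n : ℝ) + 1))) atTop (𝓝 (C ^ 12)) := by
    refine h5.congr fun n => ?_
    simp only [Function.comp_apply, him n]
  have h7 : Tendsto (fun n : ℕ => ‖c‖ * Real.exp (d * (((n + 1 : ℕ) : ℝ) + 1))) atTop
      (𝓝 (C ^ 12)) := (tendsto_add_atTop_iff_nat 1).mpr h6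
  have h8 : Tendsto (fun n : ℕ => ‖c‖ * Real.exp (d * (((n + 1 : ℕ) : ℝ) + 1))) atTop
      (𝓝 (Real.exp d * C ^ 12)) := by
    refine (h6.const_mul (Real.exp d)).congr fun n => ?_
    rw [← mul_assoc, mul_comm (Real.exp d), mul_assoc, ← Real.exp_add]
    congr 2
    push_cast
    ring
  have h9 := tendsto_nhds_unique h7 h8
  have hC12 : C ^ 12 ≠ 0 := pow_ne_zero _ hC
  have h10 : Real.exp d = 1 := by
    have : (1 : ℝ) * C ^ 12 = Real.exp d * C ^ 12 := by rw [one_mul]; exact h9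
    exact (mul_right_cancel₀ hC12 this).symm
  have h11 : d = 0 := Real.exp_eq_one_iff d |>.mp h10
  have h12 : 12 * e - W = 0 := by
    have hpi : (2 * π) ≠ 0 := by positivity
    rcases mul_eq_zero.mp (hd ▸ h11) with h | h
    · exact absurd h hpi
    · exact h
  linarith

end Fermat.Agent.S20.H81
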